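import Fermat.Agent.S48.B1.Hecke
import Fermat.Agent.S44.Eis.Basic
import Fermat.Agent.S44.Eis.Red

/-!
# S43 / S1 / Gen : the subgroup `K_∞` of the Kummer module of a `QField` with diamond operators  (block (S1))

Generic in `(Q : B1.QField) (H : B1.HeckeData Q N) (A : ValuationSubring ℚ̄)`.
Instance for the tower: `Q := X1.F1Q N`, `H := R0.HD hN`.

* `IsUU H A u`  : ALL diamond translates of `u` are constant modulo the Gauss valuation of `A((t))`
                  (`SS.RedUp A (⟨d⟩ u) 1` for every `d`);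
* `IsUU.one/mul/inv/pow/zpow/dia/gal/heckeF/const`;
* `IsUU.of_pow` : ROOT LEMMA: `z ^ n ∈ UU`, `n ≠ 0` ⟹ `z ∈ UU`;
* `isUU_gal_div`: `σ f / f ∈ UU` for `σ` in the inertia group;
* `Koo H A m`   : the classes of `B1.Kum ℚ̄ Q.F m` with a representative in `UU`;
* `gal_sub_mem_Koo` : **(S1)** `(σ - 1) KK ⊆ K_∞` for EVERY `σ` in the inertia group of `A`;
* `diaKum_mem_Koo`, `galKum_mem_Koo` (decomposition group), `heckeKum_mem_Koo`.
-/

set_option autoImplicit false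

open AlgebraicCurve ModularCurve

namespace Fermat.Agent.S43.S1

open Fermat.Agent.ES (Qb GQ Vq normSer resA galA kA)
open Fermat.Agent.SS (RedTo RedUp cst cstk)
open Fermat.Agent.S48.B1

noncomputable section

variable {A : ValuationSubring Qb}

/-! ### series lemmas -/

theorem redUp_one : RedUp A 1 1 :=
  ⟨1, one_ne_zero, by
    have h : RedTo A (1 : LaurentSeries Qb) 1 := Fermat.Agent.SS.RedTo.one
    refine h.congr ?_ rfl
    rw [cst, map_one, one_mul]⟩

theorem redUp_cst {c : Qb} (hc : c ≠ 0) : RedUp A (cst c) 1 := by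
  have h := Fermat.Agent.S44.Eis.RedUp.const_mul (A := A) hc redUp_one
  rwa [mul_one] at h

/-- every nonzero element of a `QField` has a nonzero reduction up to a constant. -/
theorem exists_redUp (Q : QField) (A : ValuationSubring Qb) (f : Q.F) (hf : f ≠ 0) :
    ∃ r : LaurentSeries (kA A), r ≠ 0 ∧ RedUp A (f : LaurentSeries Qb) r := by
  obtain ⟨c, a, b, hc, -, -, ha0, hb0, hab⟩ := Q.exists_integral_fraction A f hf
  refine ⟨coeffMap (resA A) a * (coeffMap (resA A) b)⁻¹, mul_ne_zero ha0 (inv_ne_zero hb0),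
    c⁻¹, inv_ne_zero hc, a, b, hb0, ?_, ?_⟩
  · have hcc : cst c ≠ 0 := (map_ne_zero _).2 hc
    rw [mul_assoc, hab, ← mul_assoc, cst, map_inv₀, inv_mul_cancel₀ hcc, one_mul]
  · rw [inv_mul_cancel_right₀ hb0]

/-- a series of `k((t))` whose `n`-th power is a nonzero constant is a constant. -/
theorem const_of_pow_eq {r : LaurentSeries (kA A)} {n : ℕ} (hn : n ≠ 0) {c : kA A}
    (h : r ^ n = cstk A c) : ∃ c' : kA A, r = cstk A c' := by
  have hroot : Polynomial.aeval r (Polynomial.X ^ n - Polynomial.C c : Polynomial (kA A)) = 0 := by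
    rw [map_sub, map_pow, Polynomial.aeval_X, Polynomial.aeval_C, h, sub_self]
  have hint : IsIntegral (kA A) r :=
    ⟨Polynomial.X ^ n - Polynomial.C c, Polynomial.monic_X_pow_sub_C c hn, hroot⟩
  have hdeg := IsAlgClosed.degree_eq_one_of_irreducible (kA A) (minpoly.irreducible hint)
  obtain ⟨c', hc'⟩ := minpoly.mem_range_of_degree_eq_one (kA A) r hdeg
  exact ⟨c', hc'.symm⟩

/-- ROOT LEMMA (series form). -/
theorem redUp_one_of_pow {z : LaurentSeries Qb} {r : LaurentSeries (kA A)} (hr : r ≠ 0)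
    (hz : RedUp A z r) {n : ℕ} (hn : n ≠ 0) (h : RedUp A (z ^ n) 1) : RedUp A z 1 := by
  obtain ⟨c, -, hc⟩ := Fermat.Agent.S44.Eis.RedUp.unique_up h (hz.pow n) one_ne_zero
    (pow_ne_zero n hr)
  rw [mul_one] at hc
  obtain ⟨c', rfl⟩ := const_of_pow_eq hn hc
  obtain ⟨a, rfl⟩ := IsLocalRing.residue_surjective c'
  obtain ⟨d, hd, hz⟩ := hz
  have ha : RedTo A (cst (a : Qb)) (cstk A (resA A a)) := Fermat.Agent.SS.RedTo.cst_of_mem a
  have ha0 : (a : Qb) ≠ 0 := by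
    intro h0
    have : a = 0 := Subtype.ext h0
    rw [this, map_zero, cstk, map_zero] at hr
    exact hr rfl
  refine ⟨d / (a : Qb), div_ne_zero hd ha0, ((hz.mul (ha.inv hr)).congr ?_ (mul_inv_cancel₀ hr))⟩
  rw [cst, cst, cst, map_div₀]
  ring

section NormSer

variable {p ℓ : ℕ} [NeZero ℓ] {x : LaurentSeries Qb} {r : LaurentSeries (kA A)}

theorem normSer_cst (c : Qb) : normSer ℓ (cst c) = cst (c ^ ℓ) := by
  rw [Fermat.Agent.ES.normSer, Fermat.Agent.SS.twistProd_cst]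
  conv_lhs => rw [← Fermat.Agent.SS.Vq_cst ℓ (c ^ ℓ)]
  exact Fermat.Agent.ES.contract_Vq ℓ _

theorem RedTo.nser (hp : p.Prime) (hA : A.LiesOverPrime p) (hℓ : ℓ.Prime) (hℓp : ℓ ≠ p)
    (h : RedTo A x r) : RedTo A (normSer ℓ x) (normSer ℓ r) := by
  obtain ⟨y₁, y₂, h0, h1, h2⟩ := h
  obtain ⟨ζ, hζ⟩ := Fermat.Agent.ES.exists_primitiveRoot_Qb ℓ
  obtain ⟨ξ, hξ⟩ := Fermat.Agent.S44.Eis.exists_primitiveRoot_kA hp hA hℓ hℓp
  have hb := Fermat.Agent.S44.Eis.bijective_restrict_res hp hA hℓ hℓp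
  refine ⟨normSer ℓ y₁, normSer ℓ y₂, ?_, ?_, ?_⟩
  · rw [coeffMap_normSer (resA A) ℓ hb]
    have h3 := Fermat.Agent.S44.Eis.heckeSer_ne_zero hξ h0
    rw [Fermat.Agent.ES.heckeSer] at h3
    exact right_ne_zero_of_mul h3
  · rw [coeffMap_subtype_normSer, coeffMap_subtype_normSer,
      ← Fermat.Agent.ES.normSer_mul ℓ hζ, h1]
  · rw [coeffMap_normSer (resA A) ℓ hb, coeffMap_normSer (resA A) ℓ hb,
      ← Fermat.Agent.ES.normSer_mul ℓ hξ, h2]

theorem RedUp.nser (hp : p.Prime) (hA : A.LiesOverPrime p) (hℓ : ℓ.Prime) (hℓp : ℓ ≠ p)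
    (h : RedUp A x r) : RedUp A (normSer ℓ x) (normSer ℓ r) := by
  obtain ⟨c, hc, h⟩ := h
  obtain ⟨ζ, hζ⟩ := Fermat.Agent.ES.exists_primitiveRoot_Qb ℓ
  refine ⟨c ^ ℓ, pow_ne_zero _ hc, (RedTo.nser hp hA hℓ hℓp h).congr ?_ rfl⟩
  rw [Fermat.Agent.ES.normSer_mul ℓ hζ, normSer_cst]

/-- `hecke2` of two series which are constant modulo the Gauss valuation. -/
theorem redUp_hecke2 (hp : p.Prime) (hA : A.LiesOverPrime p) (hℓ : ℓ.Prime) (hℓp : ℓ ≠ p)
    {x' : LaurentSeries Qb} (h' : RedUp A x' 1) (h : RedUp A x 1) :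
    RedUp A (hecke2 ℓ x' x) 1 := by
  have h1 := (h'.vq ℓ).mul (RedUp.nser hp hA hℓ hℓp h)
  rw [map_one, Fermat.Agent.ES.normSer_one, mul_one] at h1
  exact h1

end NormSer

/-- the action of the decomposition group on the residue field. -/
def resAut (g : A.decompositionSubgroup ℚ) : kA A →+* kA A :=
  MulSemiringAction.toRingHom (A.decompositionSubgroup ℚ) (kA A) g

theorem res_comp_galA (g : A.decompositionSubgroup ℚ) :
    (resA A).comp (galA g) = (resAut g).comp (resA A) :=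
  RingHom.ext fun a => IsLocalRing.ResidueField.residue_smul _ g a

/-! ### `UU` -/

variable {Q : QField} {N : ℕ} (H : HeckeData Q N)

/-- all the diamond translates of `u` are constant modulo the Gauss valuation of `A((t))`. -/
def IsUU (A : ValuationSubring Qb) (u : Q.F) : Prop :=
  ∀ d : (ZMod N)ˣ, RedUp A ((H.dia d u : Q.F) : LaurentSeries Qb) 1

variable {H} {u v : Q.F}

theorem IsUU.redUp (h : IsUU H A u) : RedUp A (u : LaurentSeries Qb) 1 := by
  have h1 := h 1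
  rwa [map_one] at h1

theorem IsUU.one : IsUU H A (1 : Q.F) := fun d => by
  rw [map_one]
  exact redUp_one

theorem IsUU.const {c : Qb} (hc : c ≠ 0) : IsUU H A (algebraMap Qb Q.F c) := fun d => by
  rw [AlgEquiv.commutes]
  exact redUp_cst hc

theorem IsUU.mul (hu : IsUU H A u) (hv : IsUU H A v) : IsUU H A (u * v) := fun d => by
  have h := (hu d).mul (hv d)
  rw [mul_one] at h
  rw [map_mul]
  exact h

theorem IsUU.inv (hu : IsUU H A u) : IsUU H A u⁻¹ := fun d => by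
  have h := (hu d).inv one_ne_zero
  rw [inv_one] at h
  rw [map_inv₀]
  exact h

theorem IsUU.pow (hu : IsUU H A u) (n : ℕ) : IsUU H A (u ^ n) := fun d => by
  have h := (hu d).pow n
  rw [one_pow] at h
  rw [map_pow]
  exact h

theorem IsUU.zpow (hu : IsUU H A u) (n : ℤ) : IsUU H A (u ^ n) := by
  cases n with
  | ofNat n => simpa using hu.pow n
  | negSucc n =>
    rw [zpow_negSucc]
    exact (hu.pow (n + 1)).inv

theorem IsUU.dia (hu : IsUU H A u) (d : (ZMod N)ˣ) : IsUU H A (H.dia d u) := fun d' => by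
  have h := hu (d' * d)
  rwa [map_mul] at h

theorem IsUU.prod {ι : Type*} (s : Finset ι) (f : ι → Q.F) (h : ∀ i ∈ s, IsUU H A (f i)) :
    IsUU H A (∏ i ∈ s, f i) := by
  classical
  induction s using Finset.induction_on with
  | empty => rw [Finset.prod_empty]; exact IsUU.one
  | insert a s ha ih =>
    rw [Finset.prod_insert ha]
    exact (h a (Finset.mem_insert_self a s)).mul
      (ih fun i hi => h i (Finset.mem_insert_of_mem hi))

/-- stability under the decomposition group. -/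
theorem IsUU.gal (hu : IsUU H A u) (g : A.decompositionSubgroup ℚ) :
    IsUU H A (Q.galF (g : GQ) u) := fun d => by
  have h := (hu d).gal g (resAut g) (res_comp_galA g)
  rw [map_one] at h
  rw [H.dia_gal]
  exact h

/-- stability under the multiplicative Hecke operators `T_ℓ`, `ℓ ≠` residue characteristic. -/
theorem IsUU.heckeF {p : ℕ} (hp : p.Prime) (hA : A.LiesOverPrime p) (ℓ : Fermat.Agent.ES.D.GoodPrime N)
    (hℓp : ℓ.1 ≠ p) (hu : IsUU H A u) : IsUU H A (H.heckeF ℓ u) := fun d => by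
  rw [H.dia_heckeF, HeckeData.coe_heckeF]
  refine redUp_hecke2 hp hA ℓ.2.1 hℓp ?_ (hu d)
  have h := hu (gpUnit ℓ * d)
  rwa [map_mul] at h

/-- **ROOT LEMMA.** -/
theorem IsUU.of_pow {z : Q.F} {n : ℕ} (hn : n ≠ 0) (h : IsUU H A (z ^ n)) : IsUU H A z := fun d => by
  have hz : z ≠ 0 := by
    rintro rfl
    rw [zero_pow hn] at h
    obtain ⟨c, hc, h1⟩ := h.redUp
    have hzero : RedTo A 0 0 := by
      refine ⟨0, 1, ?_, ?_, ?_⟩
      · rw [map_one]; exact one_ne_zero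
      · rw [map_zero, zero_mul]
      · rw [map_zero, zero_mul]
    have h2 : RedTo A 0 1 := h1.congr (by simp) rfl
    exact one_ne_zero (h2.unique hzero)
  have hdz : H.dia d z ≠ 0 := by
    rw [Ne, map_eq_zero_iff _ (H.dia d).injective]
    exact hz
  obtain ⟨r, hr, hzr⟩ := exists_redUp Q A (H.dia d z) hdz
  have h1 := h d
  rw [map_pow] at h1
  exact redUp_one_of_pow hr hzr hn h1

/-- `σ f / f ∈ UU` for `σ` in the inertia group. -/
theorem isUU_gal_div {σ : GQ} (hσ : σ ∈ A.inertiaSubgroupIn ℚ) {f : Q.F} (hf : f ≠ 0) :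
    IsUU H A (Q.galF σ f * f⁻¹) := fun d => by
  obtain ⟨g, rfl, hg⟩ := Fermat.Agent.ES.res_galA_of_inertia hσ
  have hdf : H.dia d f ≠ 0 := by
    rw [Ne, map_eq_zero_iff _ (H.dia d).injective]
    exact hf
  obtain ⟨r, hr, hfr⟩ := exists_redUp Q A (H.dia d f) hdf
  have h1 := hfr.gal g (RingHom.id _) (by rw [hg, RingHom.id_comp])
  rw [coeffMap_id] at h1
  have h2 := h1.mul (hfr.inv hr)
  rw [mul_inv_cancel₀ hr] at h2
  rw [map_mul, map_inv₀, H.dia_gal]
  exact h2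

/-! ### `K_∞` -/

/-- `K_∞`: the classes with a representative all of whose diamond translates are constant modulo the Gauss valuation. -/
def Koo {Q : QField} {N : ℕ} (H : HeckeData Q N) (A : ValuationSubring Qb) (m : ℕ) :
    AddSubgroup (Kum Qb Q.F m) where
  carrier := {x | ∃ u : Dm Qb Q.F m, Kum.mk u = x ∧ IsUU H A ((u : Q.Fˣ) : Q.F)}
  add_mem' := by
    rintro _ _ ⟨u, rfl, hu⟩ ⟨v, rfl, hv⟩
    refine ⟨u * v, Kum.mk_mul u v, ?_⟩
    rw [Subgroup.coe_mul, Units.val_mul]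
    exact hu.mul hv
  zero_mem' := ⟨1, Kum.mk_one, by
    rw [Subgroup.coe_one, Units.val_one]
    exact IsUU.one⟩
  neg_mem' := by
    rintro _ ⟨u, rfl, hu⟩
    refine ⟨u⁻¹, Kum.mk_inv u, ?_⟩
    rw [Subgroup.coe_inv, Units.val_inv_eq_inv_val]
    exact hu.inv

variable {m : ℕ}

theorem mem_Koo {x : Kum Qb Q.F m} :
    x ∈ Koo H A m ↔ ∃ u : Dm Qb Q.F m, Kum.mk u = x ∧ IsUU H A ((u : Q.Fˣ) : Q.F) := Iff.rfl

/-- **(S1)**: `(σ - 1) KK ⊆ K_∞` for every `σ` in the inertia group of `A`. -/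
theorem gal_sub_mem_Koo {σ : GQ} (hσ : σ ∈ A.inertiaSubgroupIn ℚ) (x : Kum Qb Q.F m) :
    galKum Q m σ x - x ∈ Koo H A m := by
  obtain ⟨f, rfl⟩ := Kum.mk_surjective x
  refine ⟨⟨semiU (Q.galS σ) f, semiU_mem_Dm _ f.2⟩ * f⁻¹, ?_, ?_⟩
  · rw [Kum.mk_mul, Kum.mk_inv, galKum_mk, sub_eq_add_neg]
  · rw [Subgroup.coe_mul, Units.val_mul, Subgroup.coe_inv, Units.val_inv_eq_inv_val]
    exact isUU_gal_div hσ (f : Q.Fˣ).ne_zero

theorem diaKum_mem_Koo (d : (ZMod N)ˣ) {x : Kum Qb Q.F m} (hx : x ∈ Koo H A m) :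
    diaKum H m d x ∈ Koo H A m := by
  obtain ⟨u, rfl, hu⟩ := hx
  exact ⟨_, (diaKum_mk H d u).symm, hu.dia d⟩

theorem galKum_mem_Koo (g : A.decompositionSubgroup ℚ) {x : Kum Qb Q.F m} (hx : x ∈ Koo H A m) :
    galKum Q m (g : GQ) x ∈ Koo H A m := by
  obtain ⟨u, rfl, hu⟩ := hx
  exact ⟨_, (galKum_mk (g : GQ) u).symm, hu.gal g⟩

theorem heckeKum_mem_Koo {p : ℕ} (hp : p.Prime) (hA : A.LiesOverPrime p) (hD : H.PreservesDm m)
    (ℓ : Fermat.Agent.ES.D.GoodPrime N) (hℓp : ℓ.1 ≠ p) {x : Kum Qb Q.F m} (hx : x ∈ Koo H A m) :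
    heckeKum H hD ℓ x ∈ Koo H A m := by
  obtain ⟨u, rfl, hu⟩ := hx
  exact ⟨_, (heckeKum_mk H hD ℓ u).symm, hu.heckeF hp hA ℓ hℓp⟩

end

end Fermat.Agent.S43.S1
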