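import Fermat.Agent.S43.S1.Gen
import Fermat.Agent.S43.R0.Pull
import Fermat.Agent.S33.Defs

/-!
# S43 / S1 / Main : `K_∞` for `F1(N)`; comparison with `FF N`

`Q := X1.F1Q N`, `H := R0.HD hN`.

* `isUU_incl`, `redConst_of_isUU_incl` : for `u ∈ FF N`: `π^* u ∈ UU ↔ u` is constant modulo the Gauss valuation;
* `pull_mem_Koo` : `π^* (K_∞(X)) ⊆ K_∞`;
* `inK1_of_isUU` : a class of `ES.Kum N m` with a representative `u` such that `π^* u ∈ UU` is in `K_∞(X)` (`S33.InK1`);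
* `frob_sub_u_mem_Koo` : `(Φ - U_q) KK ⊆ K_∞`.
-/

set_option autoImplicit false

open AlgebraicCurve ModularCurve

namespace Fermat.Agent.S43.S1

open Fermat.Agent.ES (Qb GQ FF normSer resA galA kA frobA)
open Fermat.Agent.SS (RedTo RedUp cst cstk)
open Fermat.Agent.S48 Fermat.Agent.S48.B1

noncomputable section

variable {N : ℕ} [NeZero N] (hN : 5 ≤ N) {A : ValuationSubring Qb}

theorem redUp_of_redConst {u : FF N} (h : Fermat.Agent.SS.RedConst A u) :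
    RedUp A (u : LaurentSeries Qb) 1 := by
  obtain ⟨c, y₁, y₂, hc, -, -, h12, h2, h⟩ := h
  exact ⟨c, hc, y₁, y₂, h2, h, by rw [one_mul, h12]⟩

theorem isUU_incl {u : FF N} (h : RedUp A (u : LaurentSeries Qb) 1) :
    IsUU (R0.HD hN) A (R0.incl hN u) := fun d => by
  have h1 : (R0.HD hN).dia d (R0.incl hN u) = R0.incl hN u := R0.dia_incl hN d u
  rw [h1, R0.coe_incl]
  exact h

theorem redConst_of_isUU_incl {u : FF N} (h : IsUU (R0.HD hN) A (R0.incl hN u)) :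
    Fermat.Agent.SS.RedConst A u := by
  have h1 := h.redUp
  rw [R0.coe_incl] at h1
  exact Fermat.Agent.SS.redConst_of_redUp u h1

variable {m : ℕ}

/-- `π^* (K_∞(X)) ⊆ K_∞`. -/
theorem pull_mem_Koo {x : Fermat.Agent.ES.Kum N m} (h : Fermat.Agent.S33.InK1 A x) :
    R0.pull hN m x ∈ Koo (R0.HD hN) A m := by
  obtain ⟨u, rfl, hu⟩ := h
  exact ⟨_, (R0.pull_mk hN u).symm, isUU_incl hN (redUp_of_redConst hu)⟩

theorem inK1_of_isUU (u : Fermat.Agent.ES.Dm N m)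
    (h : IsUU (R0.HD hN) A (R0.incl hN ((u : (FF N)ˣ) : FF N))) :
    Fermat.Agent.S33.InK1 A (Fermat.Agent.ES.Kum.mk u) :=
  ⟨u, rfl, redConst_of_isUU_incl hN h⟩

/-! ### `U_q` -/

section Uq

variable {q : ℕ} [NeZero q] {x : LaurentSeries Qb} {r : LaurentSeries (kA A)}

theorem RedTo.nserq (hq : q.Prime) (hA : A.LiesOverPrime q) (h : RedTo A x r) :
    RedTo A (normSer q x) (coeffMap (frobA hq hA) r) := by
  obtain ⟨y₁, y₂, h0, h1, h2⟩ := h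
  obtain ⟨ζ, hζ⟩ := Fermat.Agent.ES.exists_primitiveRoot_Qb q
  refine ⟨normSer q y₁, normSer q y₂, ?_, ?_, ?_⟩
  · rw [coeffMap_res_normSer hq hA]
    exact (map_ne_zero (coeffMap (frobA hq hA))).2 h0
  · rw [coeffMap_subtype_normSer, coeffMap_subtype_normSer,
      ← Fermat.Agent.ES.normSer_mul q hζ, h1]
  · rw [coeffMap_res_normSer hq hA, coeffMap_res_normSer hq hA, h2, map_mul]

theorem RedUp.nserq (hq : q.Prime) (hA : A.LiesOverPrime q) (h : RedUp A x r) :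
    RedUp A (normSer q x) (coeffMap (frobA hq hA) r) := by
  obtain ⟨c, hc, h⟩ := h
  obtain ⟨ζ, hζ⟩ := Fermat.Agent.ES.exists_primitiveRoot_Qb q
  refine ⟨c ^ q, pow_ne_zero _ hc, (RedTo.nserq hq hA h).congr ?_ rfl⟩
  rw [Fermat.Agent.ES.normSer_mul q hζ, normSer_cst]

end Uq

variable {q : ℕ} [Fact q.Prime] (hq : q ∣ N)

/-- `Φ f / U_q f ∈ UU`. -/
theorem isUU_frob_div_u (hA : A.LiesOverPrime q) {φ : GQ} (hφ : A.IsFrobeniusAt φ q)
    {f : (X1.F1Q N).F} (hf : f ≠ 0) :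
    IsUU (R0.HD hN) A ((X1.F1Q N).galF φ f * (R0.uF hq (R0.DD hN) f)⁻¹) := fun d => by
  have hqp : q.Prime := Fact.out
  haveI : NeZero q := ⟨hqp.ne_zero⟩
  obtain ⟨g, rfl, hg⟩ := Fermat.Agent.ES.res_galA_of_frobenius hqp hA hφ
  have hdf : (R0.HD hN).dia d f ≠ 0 := by
    rw [Ne, map_eq_zero_iff _ ((R0.HD hN).dia d).injective]
    exact hf
  obtain ⟨r, hr, hfr⟩ := exists_redUp (X1.F1Q N) A ((R0.HD hN).dia d f) hdf
  have h1 := hfr.gal g (frobA hqp hA) hg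
  have h2 := RedUp.nserq hqp hA hfr
  have hr' : coeffMap (frobA hqp hA) r ≠ 0 := (map_ne_zero (coeffMap (frobA hqp hA))).2 hr
  have h3 := h1.mul (h2.inv hr')
  rw [mul_inv_cancel₀ hr'] at h3
  have h4 : (R0.HD hN).dia d (R0.uF hq (R0.DD hN) f)
      = R0.uF hq (R0.DD hN) ((R0.HD hN).dia d f) := R0.dia_uF hq (R0.DD hN) d f
  rw [map_mul, map_inv₀, (R0.HD hN).dia_gal, h4]
  exact h3

/-- `(Φ - U_q) KK ⊆ K_∞`. -/
theorem frob_sub_u_mem_Koo (hA : A.LiesOverPrime q) {φ : GQ} (hφ : A.IsFrobeniusAt φ q)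
    (hm : 0 < m) (x : Kum Qb (X1.F1Q N).F m) :
    galKum (X1.F1Q N) m φ x - R0.uKum hN hq hm x ∈ Koo (R0.HD hN) A m := by
  obtain ⟨f, rfl⟩ := Kum.mk_surjective x
  refine ⟨⟨semiU ((X1.F1Q N).galS φ) f, semiU_mem_Dm _ f.2⟩
    * ⟨R0.uU hq (R0.DD hN) f, R0.uU_mem_Dm hN hq hm f.2⟩⁻¹, ?_, ?_⟩
  · rw [Kum.mk_mul, Kum.mk_inv, galKum_mk, R0.uKum_mk, sub_eq_add_neg]
  · rw [Subgroup.coe_mul, Units.val_mul, Subgroup.coe_inv, Units.val_inv_eq_inv_val]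
    exact isUU_frob_div_u hN hq hA hφ (f : (X1.F1Q N).Fˣ).ne_zero

end

end Fermat.Agent.S43.S1
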